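import Fermat.Agent.Bowen.Invariance
import Fermat.Agent.Gaboriau.Main
import Fermat.Agent.KolmogorovSinai.Bernoulli
import Fermat.Agent.KolmogorovSinai.Generator

/-!
# Conjugacy and Bernoulli shifts

Conjugate actions have the same invariant. For a Bernoulli shift the functional of a connected set
of coordinates is the entropy of one letter, because a finite subtree has one vertex more than it
has edges.
-/

set_option autoImplicit false

noncomputable section

open MeasureTheory Filter Topology Real
open FA.KolmogorovSinai (entropy entropy_congr entropy_map)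
open FA.Gaboriau (shiftAction groupShift)

namespace FA.Bowen

section conjugacy

variable {α X Y ι : Type*} [Fintype α] [DecidableEq α] [MeasurableSpace X] [MeasurableSpace Y]
  [MulAction (FreeGroup α) X] [MulAction (FreeGroup α) Y] {μ : Measure X} {ν : Measure Y}

omit [DecidableEq α] [MeasurableSpace Y] in
theorem obs_comp {Φ : X → Y} (heq : ∀ g : FreeGroup α, (fun x => Φ (g • x)) =ᵐ[μ] fun x => g • Φ x)
    (P : Y → ι) (S : Finset (FreeGroup α)) : obs (P ∘ Φ) S =ᵐ[μ] obs P S ∘ Φ := by
  filter_upwards [ae_all_iff.2 fun g : FreeGroup α => heq g] with x hx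
  funext g
  exact congrArg P (hx _)

variable [IsProbabilityMeasure μ] [IsProbabilityMeasure ν] [Fintype ι] [MeasurableSpace ι]
  [MeasurableSingletonClass ι]

omit [IsProbabilityMeasure μ] [IsProbabilityMeasure ν] in
/-- The invariant is carried by factor maps. -/
theorem fInv_comp (hμ : ∀ g : FreeGroup α, MeasurePreserving (fun x : X => g • x) μ μ)
    (hν : ∀ g : FreeGroup α, MeasurePreserving (fun y : Y => g • y) ν ν) {Φ : X → Y}
    (hΦ : MeasurePreserving Φ μ ν)
    (heq : ∀ g : FreeGroup α, (fun x => Φ (g • x)) =ᵐ[μ] fun x => g • Φ x) {P : Y → ι}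
    (hP : Measurable P) : fInv α μ (P ∘ Φ) = fInv α ν P := by
  refine iInf_congr fun n => ?_
  have hB := measurable_obs hν hP (ball α n)
  have h0 := obs_comp heq P (ball α n)
  simp only [func]
  rw [entropy_congr h0, entropy_map hΦ hB]
  congr 3
  funext a
  rw [← entropy_map hΦ (hB.prodMk (measurable_tr hν hB (FreeGroup.of a)))]
  refine entropy_congr ?_
  filter_upwards [h0, (hμ (FreeGroup.of a)⁻¹).quasiMeasurePreserving.ae h0,
    heq (FreeGroup.of a)⁻¹] with x hx hx' hx''
  simp only [Function.comp_apply, tr] at hx hx' ⊢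
  rw [hx, hx', hx'']

omit [IsProbabilityMeasure ν] [Fintype ι] [MeasurableSpace ι] [MeasurableSingletonClass ι] in
/-- Generators are carried by isomorphisms. -/
theorem Generates.comp {Φ : X → Y} {Ψ : Y → X} (hΦ : MeasurePreserving Φ μ ν) (hΨ : Measurable Ψ)
    (hinv : Ψ ∘ Φ =ᵐ[μ] id)
    (heq : ∀ g : FreeGroup α, (fun x => Φ (g • x)) =ᵐ[μ] fun x => g • Φ x)
    [MeasurableSpace ι] [MeasurableSingletonClass ι] [Countable ι]
    (hν : ∀ g : FreeGroup α, MeasurePreserving (fun y : Y => g • y) ν ν) {P : Y → ι}
    (hP : Measurable P) (hgen : Generates α ν P) : Generates α μ (P ∘ Φ) := by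
  intro k Q hQ ε hε
  obtain ⟨n, f, hf⟩ := hgen k (Q ∘ Ψ) (hQ.comp hΨ) ε hε
  refine ⟨n, f, lt_of_le_of_lt ?_ hf⟩
  have hset : MeasurableSet {y | (Q ∘ Ψ) y ≠ f (obs P (ball α n) y)} :=
    (measurableSet_eq_fun (hQ.comp hΨ)
      ((measurable_of_countable f).comp (measurable_obs hν hP _))).compl
  rw [measureReal_def, measureReal_def, ← hΦ.measure_preimage hset.nullMeasurableSet]
  refine ENNReal.toReal_mono (measure_ne_top _ _) (measure_mono_ae ?_)
  filter_upwards [hinv, obs_comp heq P (ball α n)] with x hx hx' hne
  simp only [Function.comp_apply, id_eq] at hx hx'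
  show Q (Ψ (Φ x)) ≠ f (obs P (ball α n) (Φ x))
  rw [hx, ← hx']
  exact hne

end conjugacy

section bernoulli

variable {α A : Type*} [Fintype α] [DecidableEq α] [Fintype A] [MeasurableSpace A]
  [MeasurableSingletonClass A]

/-- The Bernoulli measure on a free group. -/
abbrev bernF (α : Type*) {A : Type*} [MeasurableSpace A] (q : Measure A) :
    Measure (FreeGroup α → A) :=
  Measure.infinitePi fun _ => q

/-- The letter at `1`. -/
def coord (α : Type*) {A : Type*} (x : FreeGroup α → A) : A := x 1

omit [Fintype α] [DecidableEq α] [Fintype A] [MeasurableSingletonClass A] in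
theorem measurable_coord : Measurable (coord α : (FreeGroup α → A) → A) := measurable_pi_apply 1

attribute [local instance] FA.Gaboriau.shiftAction

omit [Fintype α] [DecidableEq α] [Fintype A] [MeasurableSingletonClass A] in
theorem measurePreserving_groupShift (q : Measure A) [IsProbabilityMeasure q] (g : FreeGroup α) :
    MeasurePreserving (groupShift g) (bernF α q) (bernF α q) := by
  classical
  have hm : Measurable (groupShift g : (FreeGroup α → A) → FreeGroup α → A) :=
    measurable_pi_lambda _ fun _ => measurable_pi_apply _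
  refine ⟨hm, Measure.eq_infinitePi _ fun s t ht => ?_⟩
  rw [Measure.map_apply hm (.pi s.countable_toSet fun i _ => ht i)]
  have e : (groupShift g : (FreeGroup α → A) → FreeGroup α → A) ⁻¹' Set.pi s t =
      Set.pi (s.image fun i => g⁻¹ * i : Finset (FreeGroup α)) fun i => t (g * i) := by
    ext x
    simp only [groupShift, Set.mem_preimage, Set.mem_pi, Finset.coe_image, Set.forall_mem_image,
      Finset.mem_coe, mul_inv_cancel_left]
  rw [e, bernF, Measure.infinitePi_pi _ fun i _ => ht (g * i),
    Finset.prod_image (fun a _ b _ h => mul_left_cancel h)]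
  simp

omit [Fintype α] [DecidableEq α] [Fintype A] [MeasurableSpace A]
  [MeasurableSingletonClass A] in
theorem tr_coord (g : FreeGroup α) : tr g (coord α) = fun x : FreeGroup α → A => x g := by
  funext x
  show x ((g⁻¹)⁻¹ * 1) = x g
  simp

omit [Fintype α] in
theorem entropy_coords (q : Measure A) [IsProbabilityMeasure q] (S : Finset (FreeGroup α)) :
    entropy (bernF α q) (obs (coord α) S) = S.card * ∑ a, negMulLog (q.real {a}) := by
  classical
  set e := S.equivFin
  have hone : ∀ w : S → A,
      (bernF α q).real (obs (coord α) S ⁻¹' {w}) = ∏ g, q.real {w g} := fun w => by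
    have hset : obs (coord α) S ⁻¹' {w} = Set.pi (↑S)
        fun g => if hg : g ∈ S then {w ⟨g, hg⟩} else Set.univ := by
      ext x
      simp only [Set.mem_preimage, Set.mem_singleton_iff, funext_iff, obs, tr_coord, Set.mem_pi,
        Finset.mem_coe, Subtype.forall]
      refine forall₂_congr fun g hg => ?_
      simp [hg]
    rw [hset, measureReal_def, bernF,
      Measure.infinitePi_pi _ fun g hg => by simp [Finset.mem_coe.1 hg],
      ENNReal.toReal_prod, ← Finset.prod_coe_sort]
    exact Finset.prod_congr rfl fun g _ => by simp [measureReal_def]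
  rw [entropy, ← KolmogorovSinai.sum_prod_negMulLog q S.card,
    ← (e.arrowCongr (Equiv.refl A)).sum_comp]
  refine Finset.sum_congr rfl fun w _ => ?_
  rw [hone, ← e.symm.prod_comp]
  rfl

/-- A set containing with every element the tails of its reduced word, which induces one vertex
more than edges. -/
structure Nice (S : Finset (FreeGroup α)) : Prop where
  one_mem : (1 : FreeGroup α) ∈ S
  tail_mem : ∀ g ∈ S, FreeGroup.mk g.toWord.tail ∈ S
  count : (∑ a : α, (S ∪ S.image (FreeGroup.of a * ·)).card) + S.card =
    2 * Fintype.card α * S.card + 1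

omit [Fintype α] in
theorem toWord_sign_mul {S : Finset (FreeGroup α)}
    (htail : ∀ g ∈ S, FreeGroup.mk g.toWord.tail ∈ S) {l : α × Bool} {g : FreeGroup α} (hg : g ∈ S)
    (hx : sign l * g ∉ S) : (sign l * g).toWord = l :: g.toWord := by
  have e : sign l * g = FreeGroup.mk (l :: g.toWord) := by
    conv_lhs => rw [← FreeGroup.mk_toWord (x := g)]
    obtain ⟨a, b⟩ := l
    cases b <;> rfl
  rw [e, FreeGroup.toWord_mk, FreeGroup.reduce.cons, FreeGroup.reduce_toWord]
  cases hw : g.toWord with
  | nil => rfl
  | cons m L =>
    simp only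
    split_ifs with h
    · refine absurd ?_ hx
      have hL := htail g hg
      rw [hw, List.tail_cons] at hL
      rwa [show sign l * g = FreeGroup.mk L by
        rw [← FreeGroup.mk_toWord (x := sign l * g), e, FreeGroup.toWord_mk,
          FreeGroup.reduce.cons, FreeGroup.reduce_toWord, hw]
        simp [h]]
    · rfl

theorem nice_one : Nice ({1} : Finset (FreeGroup α)) where
  one_mem := Finset.mem_singleton_self 1
  tail_mem g hg := by
    rw [Finset.mem_singleton.1 hg, FreeGroup.toWord_one, List.tail_nil, ← FreeGroup.one_eq_mk]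
    exact Finset.mem_singleton_self 1
  count := by
    have h : ∀ a : α, ({1} ∪ ({1} : Finset (FreeGroup α)).image (FreeGroup.of a * ·)).card = 2 :=
      fun a => by
        rw [Finset.image_singleton, mul_one, ← Finset.insert_eq, Finset.card_insert_of_notMem,
          Finset.card_singleton]
        rw [Finset.mem_singleton]
        exact (FreeGroup.of_ne_one a).symm
    simp [mul_comm]

/-- A new neighbour keeps a set nice. -/
theorem Nice.grow {S : Finset (FreeGroup α)} (hS : Nice S) {l : α × Bool} {g : FreeGroup α}
    (hg : g ∈ S) (hx : sign l * g ∉ S) : Nice (insert (sign l * g) S) := by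
  set x := sign l * g with hxdef
  have hword := toWord_sign_mul hS.tail_mem hg hx
  have huniq : ∀ m : α × Bool, sign m * x ∈ S → m = (l.1, !l.2) := fun m hm => by
    have hm' : sign (m.1, !m.2) * (sign m * x) = x := by
      obtain ⟨a, b⟩ := m
      cases b <;> simp [sign]
    have h2 := toWord_sign_mul hS.tail_mem hm (l := (m.1, !m.2)) (by rwa [hm'])
    rw [hm', hword, List.cons.injEq] at h2
    rw [h2.1]
    simp
  have hback : sign (l.1, !l.2) * x = g := by
    obtain ⟨a, b⟩ := l
    cases b <;> simp [sign, x]
  refine ⟨Finset.mem_insert_of_mem hS.one_mem, fun h hh => ?_, ?_⟩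
  · rcases Finset.mem_insert.1 hh with rfl | hh
    · rw [hword, List.tail_cons, FreeGroup.mk_toWord]
      exact Finset.mem_insert_of_mem hg
    · exact Finset.mem_insert_of_mem (hS.tail_mem h hh)
  have hgain : ∀ a : α, (insert x S ∪ (insert x S).image (FreeGroup.of a * ·)).card +
      (if a = l.1 then 1 else 0) = (S ∪ S.image (FreeGroup.of a * ·)).card + 2 := fun a => by
    set U := S ∪ S.image (FreeGroup.of a * ·)
    have hU : insert x S ∪ (insert x S).image (FreeGroup.of a * ·) =
        insert (FreeGroup.of a * x) (insert x U) := by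
      ext y
      simp only [U, Finset.mem_union, Finset.mem_insert, Finset.mem_image]
      constructor
      · rintro ((h | h) | ⟨z, rfl | hz, rfl⟩)
        exacts [Or.inr (Or.inl h), Or.inr (Or.inr (Or.inl h)), Or.inl rfl,
          Or.inr (Or.inr (Or.inr ⟨z, hz, rfl⟩))]
      · rintro (h | h | h | ⟨z, hz, rfl⟩)
        exacts [Or.inr ⟨x, Or.inl rfl, h.symm⟩, Or.inl (Or.inl h), Or.inl (Or.inr h),
          Or.inr ⟨z, Or.inr hz, rfl⟩]
    have h1 : x ∈ U ↔ (a, false) = (l.1, !l.2) := by
      constructor
      · intro h
        rcases Finset.mem_union.1 h with h | h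
        · exact absurd h hx
        · obtain ⟨z, hz, hzx⟩ := Finset.mem_image.1 h
          refine huniq (a, false) ?_
          rwa [← hzx, show sign (a, false) = (FreeGroup.of a)⁻¹ from rfl, inv_mul_cancel_left]
      · intro h
        refine Finset.mem_union_right _ (Finset.mem_image.2 ⟨g, hg, ?_⟩)
        rw [← hback, ← h, show sign (a, false) = (FreeGroup.of a)⁻¹ from rfl, mul_inv_cancel_left]
    have h2 : FreeGroup.of a * x ∈ insert x U ↔ (a, true) = (l.1, !l.2) := by
      constructor
      · intro h
        rcases Finset.mem_insert.1 h with h | h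
        · exact absurd (mul_eq_right.1 h) (FreeGroup.of_ne_one a)
        rcases Finset.mem_union.1 h with h | h
        · exact huniq (a, true) h
        · obtain ⟨z, hz, hzx⟩ := Finset.mem_image.1 h
          exact absurd (mul_left_cancel hzx ▸ hz) hx
      · intro h
        refine Finset.mem_insert_of_mem (Finset.mem_union_left _ ?_)
        rw [show FreeGroup.of a * x = g by rw [← hback, ← h]; rfl]
        exact hg
    rw [hU, Finset.card_insert_eq_ite, Finset.card_insert_eq_ite]
    simp only [h1, h2, Prod.ext_iff]
    obtain ⟨a₀, b⟩ := l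
    cases b <;> by_cases ha : a = a₀ <;> simp [ha]
  have hsum := Finset.sum_congr rfl (fun a (_ : a ∈ Finset.univ) => hgain a)
  rw [Finset.sum_add_distrib, Finset.sum_add_distrib, Finset.sum_ite_eq',
    if_pos (Finset.mem_univ _), Finset.sum_const, Finset.card_univ, smul_eq_mul] at hsum
  have := hS.count
  rw [Finset.card_insert_of_notMem hx, mul_add, mul_one]
  omega

theorem nice_ball (n : ℕ) : Nice (ball α n) :=
  ball_induction (Nat.zero_le n) nice_one fun _ _ _ hg hx hS => hS.grow hg hx

theorem func_bernoulli (q : Measure A) [IsProbabilityMeasure q] (n : ℕ) :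
    func α (bernF α q) (obs (coord α) (ball α n)) = ∑ a, negMulLog (q.real {a}) := by
  classical
  have : Nonempty A := nonempty_of_isProbabilityMeasure q
  have hpres : ∀ g : FreeGroup α, MeasurePreserving (fun x : FreeGroup α → A => g • x)
      (bernF α q) (bernF α q) := measurePreserving_groupShift q
  have hterm : ∀ a : α, entropy (bernF α q) (fun x => (obs (coord α) (ball α n) x,
      tr (FreeGroup.of a) (obs (coord α) (ball α n)) x)) =
      ((ball α n ∪ (ball α n).image (FreeGroup.of a * ·)).card : ℝ) *
        ∑ a, negMulLog (q.real {a}) := fun a => by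
    rw [← entropy_coords]
    have hm := measurable_obs hpres measurable_coord (ball α n)
    refine entropy_eq (hm.prodMk (measurable_tr hpres hm _))
      (measurable_obs hpres measurable_coord _) ?_ (coarser_obs_of fun g hg => ?_)
    · refine (coarser_obs_mono Finset.subset_union_left).prod ?_
      refine Coarser.trans ?_ (coarser_obs_mono Finset.subset_union_right)
      refine ⟨fun v (h : ball α n) => v ⟨FreeGroup.of a * (h : FreeGroup α),
        Finset.mem_image_of_mem _ h.2⟩, funext fun x => funext fun h => ?_⟩
      show tr (FreeGroup.of a) (tr (h : FreeGroup α) (coord α)) x = _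
      rw [tr_tr]
      rfl
    · rcases Finset.mem_union.1 hg with hg | hg
      · exact (coarser_obs_mem hg).trans (coarser_fst _ _)
      · obtain ⟨h, hh, rfl⟩ := Finset.mem_image.1 hg
        rw [← tr_tr]
        exact ((coarser_obs_mem hh).translate _).trans (coarser_snd _ _)
  rw [func, entropy_coords, Finset.sum_congr rfl fun a _ => hterm a, ← Finset.sum_mul,
    ← Nat.cast_sum]
  have hc := congrArg (fun k : ℕ => (k : ℝ)) (nice_ball (α := α) n).count
  simp only [Nat.cast_add, Nat.cast_mul, Nat.cast_one, Nat.cast_ofNat] at hc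
  linear_combination (∑ a, negMulLog (q.real {a})) * hc

omit [MeasurableSingletonClass A] [Fintype A] [MeasurableSpace A] in
theorem exists_mem_ball : ∀ g : FreeGroup α, ∃ n, g ∈ ball α n := by
  intro g
  rw [← FreeGroup.mk_toWord (x := g)]
  induction g.toWord with
  | nil => exact ⟨0, Finset.mem_singleton_self _⟩
  | cons l L ih =>
    obtain ⟨n, hn⟩ := ih
    refine ⟨n + 1, Finset.mem_union_right _ (Finset.mem_image.2
      ⟨(l, FreeGroup.mk L), Finset.mem_product.2 ⟨Finset.mem_univ _, hn⟩, ?_⟩)⟩
    obtain ⟨a, b⟩ := l
    cases b <;> rfl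

theorem generates_coord (q : Measure A) [IsProbabilityMeasure q] :
    Generates α (bernF α q) (coord α : (FreeGroup α → A) → A) := by
  intro k Q hQ ε hε
  let W : ∀ m, (FreeGroup α → A) → Fin (ball α m).card → A :=
    fun m x j => x ((ball α m).equivFin.symm j : FreeGroup α)
  have hW : ∀ m, Measurable (W m) := fun m =>
    measurable_pi_lambda _ fun j => measurable_pi_apply _
  have hmono : Monotone fun m => MeasurableSpace.comap (W m) inferInstance := fun m m' hmm => by
    let φ : (Fin (ball α m').card → A) → Fin (ball α m).card → A := fun v j =>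
      v ((ball α m').equivFin ⟨_, ball_mono hmm ((ball α m).equivFin.symm j).2⟩)
    have e : W m = φ ∘ W m' := by
      funext x j
      simp [W, φ]
    simp only [e, ← MeasurableSpace.comap_comp]
    exact MeasurableSpace.comap_mono (measurable_of_finite φ).comap_le
  have hgen : ⨆ m, MeasurableSpace.comap (W m) inferInstance =
      (MeasurableSpace.pi : MeasurableSpace (FreeGroup α → A)) := by
    refine le_antisymm (iSup_le fun m => (hW m).comap_le) (iSup_le fun g => ?_)
    obtain ⟨m, hm⟩ := exists_mem_ball g
    refine le_iSup_of_le m ?_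
    rw [show (fun x : FreeGroup α → A => x g) = (fun v => v ((ball α m).equivFin ⟨g, hm⟩)) ∘ W m by
      funext x; simp [W], ← MeasurableSpace.comap_comp]
    exact MeasurableSpace.comap_mono (measurable_pi_apply _).comap_le
  obtain ⟨f, hf⟩ := KolmogorovSinai.exists_approx (μ := bernF α q) hW hmono hgen hQ
  obtain ⟨m, hm⟩ := (((ENNReal.tendsto_toReal ENNReal.zero_ne_top).comp hf).eventually_lt_const
    hε).exists
  refine ⟨m, fun v => f m fun j => v ((ball α m).equivFin.symm j), ?_⟩
  simp only [obs, tr_coord]
  exact hm

end bernoulli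

end FA.Bowen

end
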