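import Fermat.Agent.Bowen.Splitting

/-!
# The invariance of Bowen's functional

The functional decreases along balls to the invariant, and generating observables have the same
invariant.
-/

set_option autoImplicit false

noncomputable section

open MeasureTheory Filter Topology Real
open FA.KolmogorovSinai (entropy entropy_nonneg entropy_comp_le entropy_pair_le)

namespace FA.Bowen

section error

variable {X B C : Type*} [MeasurableSpace X] {μ : Measure X} [IsProbabilityMeasure μ] [Fintype B]
  [MeasurableSpace B] [MeasurableSingletonClass B]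

open Classical in
/-- The correction turning `Q'` into `Q`. -/
def err (Q Q' : X → B) (x : X) : Option B := if Q x = Q' x then none else some (Q x)

omit [MeasurableSingletonClass B] [Fintype B] in
theorem measurable_err [Countable B] [MeasurableSingletonClass B] [MeasurableSpace (Option B)]
    [MeasurableSingletonClass (Option B)] {Q Q' : X → B} (hQ : Measurable Q)
    (hQ' : Measurable Q') : Measurable (err Q Q') := by
  classical
  exact (measurable_of_countable fun p : B × B => if p.1 = p.2 then none else some p.1).comp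
    (hQ.prodMk hQ')

/-- Small corrections have small entropy. -/
theorem exists_entropy_err_le (μ : Measure X) [IsProbabilityMeasure μ] {ε : ℝ} (hε : 0 < ε) :
    ∃ δ > 0, ∀ Q Q' : X → B, Measurable Q → Measurable Q' →
      μ.real {x | Q x ≠ Q' x} < δ → entropy μ (err Q Q') ≤ ε := by
  classical
  set η := ε / (Fintype.card B + 1)
  have hη : 0 < η := by positivity
  obtain ⟨δ, hδ, h0⟩ := Metric.continuousAt_iff.1
    (continuous_negMulLog.continuousAt (x := 0)) η hη
  obtain ⟨δ', hδ', h1⟩ := Metric.continuousAt_iff.1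
    (continuous_negMulLog.continuousAt (x := 1)) η hη
  refine ⟨min δ δ', lt_min hδ hδ', fun Q Q' hQ hQ' hm => ?_⟩
  have hne : MeasurableSet {x | Q x ≠ Q' x} :=
    (measurableSet_eq_fun hQ hQ').compl
  have hb : ∀ o, negMulLog (μ.real (err Q Q' ⁻¹' {o})) ≤ η := fun o => by
    cases o with
    | none =>
      have e : err Q Q' ⁻¹' {none} = {x | Q x ≠ Q' x}ᶜ := by
        ext x
        by_cases hx : Q x = Q' x <;> simp [err, hx]
      have := h1 (x := μ.real (err Q Q' ⁻¹' {none})) (by
        rw [e, probReal_compl_eq_one_sub hne, Real.dist_eq, sub_sub_cancel_left, abs_neg,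
          abs_of_nonneg measureReal_nonneg]
        exact hm.trans_le (min_le_right _ _))
      rw [Real.dist_eq, negMulLog_one, sub_zero] at this
      exact (le_abs_self _).trans this.le
    | some b =>
      have := h0 (x := μ.real (err Q Q' ⁻¹' {some b})) (by
        rw [Real.dist_eq, sub_zero, abs_of_nonneg measureReal_nonneg]
        refine lt_of_le_of_lt (measureReal_mono (s₂ := {x | Q x ≠ Q' x}) fun x hx hxe => ?_)
          (hm.trans_le (min_le_left _ _))
        simp [err, hxe] at hx)
      rw [Real.dist_eq, negMulLog_zero, sub_zero] at this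
      exact (le_abs_self _).trans this.le
  refine (Finset.sum_le_sum fun o _ => hb o).trans (le_of_eq ?_)
  simp [η]
  field_simp

/-- An observable costs at most an approximation and the correction. -/
theorem entropy_le_add_err [MeasurableSpace (Option B)] [MeasurableSingletonClass (Option B)]
    {Q Q' : X → B} (hQ : Measurable Q) (hQ' : Measurable Q') :
    entropy μ Q ≤ entropy μ Q' + entropy μ (err Q Q') := by
  refine le_trans ?_ (entropy_pair_le hQ' (measurable_err hQ hQ'))
  refine entropy_mono (hQ'.prodMk (measurable_err hQ hQ'))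
    ⟨fun p => p.2.getD p.1, funext fun x => ?_⟩
  by_cases hx : Q x = Q' x <;> simp [err, hx]

end error

section balls

variable {α : Type*} [Fintype α] [DecidableEq α]

/-- The ball of radius `n` around `1`. -/
def ball (α : Type*) [Fintype α] [DecidableEq α] : ℕ → Finset (FreeGroup α)
  | 0 => {1}
  | n + 1 => ball α n ∪ ((Finset.univ : Finset (α × Bool)) ×ˢ ball α n).image
      fun p => sign p.1 * p.2

theorem ball_mono : Monotone (ball α) := monotone_nat_of_le_succ fun _ => Finset.subset_union_left

theorem mul_mem_ball {m n : ℕ} {g h : FreeGroup α} (hg : g ∈ ball α m) (hh : h ∈ ball α n) :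
    g * h ∈ ball α (m + n) := by
  induction m generalizing g with
  | zero =>
    rw [Finset.mem_singleton.1 hg, one_mul, zero_add]
    exact hh
  | succ m ih =>
    rw [Nat.succ_add]
    rcases Finset.mem_union.1 hg with hg | hg
    · exact Finset.mem_union_left _ (ih hg)
    · obtain ⟨⟨l, g'⟩, hp, rfl⟩ := Finset.mem_image.1 hg
      rw [mul_assoc]
      exact Finset.mem_union_right _ (Finset.mem_image.2
        ⟨(l, g' * h), Finset.mem_product.2 ⟨Finset.mem_univ _, ih (Finset.mem_product.1 hp).2⟩,
          rfl⟩)

/-- Balls grow by adjoining neighbours one at a time. -/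
theorem ball_induction {n m : ℕ} (hnm : n ≤ m) {p : Finset (FreeGroup α) → Prop}
    (h0 : p (ball α n)) (hstep : ∀ (S : Finset (FreeGroup α)) (l : α × Bool) (g : FreeGroup α),
      g ∈ S → sign l * g ∉ S → p S → p (insert (sign l * g) S)) : p (ball α m) := by
  induction m, hnm using Nat.le_induction with
  | base => exact h0
  | succ m _ ih =>
    suffices ∀ D : Finset (FreeGroup α),
        D ⊆ ((Finset.univ : Finset (α × Bool)) ×ˢ ball α m).image (fun p => sign p.1 * p.2) →
        p (ball α m ∪ D) from this _ subset_rfl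
    intro D
    induction D using Finset.induction_on with
    | empty => intro _; rwa [Finset.union_empty]
    | @insert x D _ ihD =>
      intro hD
      rw [Finset.insert_subset_iff] at hD
      rw [Finset.union_insert]
      by_cases hx : x ∈ ball α m ∪ D
      · rw [Finset.insert_eq_of_mem hx]
        exact ihD hD.2
      · obtain ⟨⟨l, g⟩, hp, rfl⟩ := Finset.mem_image.1 hD.1
        exact hstep _ l g (Finset.mem_union_left _ (Finset.mem_product.1 hp).2) hx (ihD hD.2)

end balls

section invariant

variable {α X ι κ C : Type*} [MeasurableSpace X] [MulAction (FreeGroup α) X] {μ : Measure X}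

/-- The join of the translates over a finite set. -/
def obs (P : X → ι) (S : Finset (FreeGroup α)) : X → S → ι := fun x g => tr (g : FreeGroup α) P x

theorem measurable_obs (hpres : ∀ g : FreeGroup α, MeasurePreserving (fun x : X => g • x) μ μ)
    [MeasurableSpace ι] {P : X → ι} (hP : Measurable P) (S : Finset (FreeGroup α)) :
    Measurable (obs P S) :=
  measurable_pi_lambda _ fun g => measurable_tr hpres hP g

omit [MeasurableSpace X] in
theorem coarser_obs_mem {P : X → ι} {S : Finset (FreeGroup α)} {g : FreeGroup α} (hg : g ∈ S) :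
    Coarser (tr g P) (obs P S) := ⟨fun w => w ⟨g, hg⟩, rfl⟩

omit [MeasurableSpace X] in
theorem coarser_obs_of {P : X → ι} {S : Finset (FreeGroup α)} {Q : X → C} [Nonempty ι]
    (h : ∀ g ∈ S, Coarser (tr g P) Q) : Coarser (obs P S) Q := by
  choose f hf using h
  exact ⟨fun c g => f g g.2 c, funext fun x => funext fun g => congrFun (hf g g.2) x⟩

omit [MeasurableSpace X] in
theorem coarser_obs_mono [Nonempty ι] {P : X → ι} {S S' : Finset (FreeGroup α)} (h : S ⊆ S') :
    Coarser (obs P S) (obs P S') := coarser_obs_of fun _ hg => coarser_obs_mem (h hg)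

variable [Fintype α] [DecidableEq α] [IsProbabilityMeasure μ] [Fintype ι] [MeasurableSpace ι]
  [MeasurableSingletonClass ι] [Fintype C] [MeasurableSpace C] [MeasurableSingletonClass C]

/-- Beside a fixed observable, enlarging balls does not increase the functional. -/
theorem func_pair_ball_anti (hpres : ∀ g : FreeGroup α, MeasurePreserving (fun x : X => g • x) μ μ)
    {Q : X → C} (hQ : Measurable Q) {P : X → ι} (hP : Measurable P) {n m : ℕ} (hnm : n ≤ m) :
    func α μ (fun x => (Q x, obs P (ball α m) x)) ≤
      func α μ fun x => (Q x, obs P (ball α n) x) := by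
  have : Nonempty X := nonempty_of_isProbabilityMeasure μ
  have : Nonempty ι := this.map P
  refine ball_induction hnm (p := fun S => func α μ (fun x => (Q x, obs P S x)) ≤
    func α μ fun x => (Q x, obs P (ball α n) x)) le_rfl fun S l g hg _ ih => le_trans ?_ ih
  have hb : Measurable fun x => (Q x, obs P S x) := hQ.prodMk (measurable_obs hpres hP S)
  refine le_trans (le_of_eq ?_) (func_split hpres hb (fun p => p.2 ⟨g, hg⟩) l)
  have hnew := measurable_tr hpres
    ((measurable_of_finite fun p : C × (S → ι) => p.2 ⟨g, hg⟩).comp hb) (sign l)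
  refine func_congr hpres (hQ.prodMk (measurable_obs hpres hP _)) (hb.prodMk hnew) ?_ ?_
  · refine ((coarser_fst _ _).trans (coarser_fst _ _)).prod (coarser_obs_of fun h hh => ?_)
    rcases Finset.mem_insert.1 hh with rfl | hh
    · rw [← tr_tr]
      exact coarser_snd _ _
    · exact (coarser_obs_mem hh).trans ((coarser_snd _ _).trans (coarser_fst _ _))
  · refine ((coarser_fst _ _).prod
      ((coarser_obs_mono (Finset.subset_insert _ _)).trans (coarser_snd _ _))).prod ?_
    show Coarser (tr (sign l) (tr g P)) _
    rw [tr_tr]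
    exact (coarser_obs_mem (Finset.mem_insert_self _ _)).trans (coarser_snd _ _)

/-- **The functional decreases along balls.** -/
theorem func_ball_anti (hpres : ∀ g : FreeGroup α, MeasurePreserving (fun x : X => g • x) μ μ)
    {P : X → ι} (hP : Measurable P) : Antitone fun n => func α μ (obs P (ball α n)) := by
  intro n m hnm
  have h := func_pair_ball_anti hpres (measurable_const (a := ())) hP hnm
  have e : ∀ k, func α μ (fun x : X => ((), obs P (ball α k) x)) = func α μ (obs P (ball α k)) :=
    fun k => func_congr hpres (measurable_const.prodMk (measurable_obs hpres hP _))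
      (measurable_obs hpres hP _) ⟨fun w => ((), w), rfl⟩ (coarser_snd _ _)
  rwa [e, e] at h

/-- **Bowen's invariant.** -/
def fInv (α : Type*) [Fintype α] [DecidableEq α] {X ι : Type*} [MeasurableSpace X]
    [MulAction (FreeGroup α) X] (μ : Measure X) [Fintype ι] (P : X → ι) : EReal :=
  ⨅ n, ((func α μ (obs P (ball α n)) : ℝ) : EReal)

/-- The translates of `P` determine every observable up to a small error. -/
def Generates (α : Type*) [Fintype α] [DecidableEq α] {X ι : Type*} [MeasurableSpace X]
    [MulAction (FreeGroup α) X] (μ : Measure X) (P : X → ι) : Prop :=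
  ∀ (k : ℕ) (Q : X → Fin k), Measurable Q → ∀ ε > 0,
    ∃ (n : ℕ) (f : (ball α n → ι) → Fin k), μ.real {x | Q x ≠ f (obs P (ball α n) x)} < ε

omit [Fintype ι] [MeasurableSpace ι] [MeasurableSingletonClass ι] in
theorem Generates.approx {P : X → ι} (h : Generates α μ P) {B : Type*} [Fintype B]
    [MeasurableSpace B] [MeasurableSingletonClass B] {Q : X → B} (hQ : Measurable Q) {ε : ℝ}
    (hε : 0 < ε) (k : ℕ) :
    ∃ n ≥ k, ∃ f : (ball α n → ι) → B, μ.real {x | Q x ≠ f (obs P (ball α n) x)} < ε := by
  set e := Fintype.equivFin B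
  obtain ⟨n, f, hf⟩ := h _ (e ∘ Q) ((measurable_of_finite e).comp hQ) ε hε
  refine ⟨max n k, le_max_right _ _, fun w => e.symm (f fun g =>
    w ⟨g, ball_mono (le_max_left n k) g.2⟩), lt_of_le_of_lt
      (measureReal_mono (s₂ := {x | (e ∘ Q) x ≠ f (obs P (ball α n) x)}) fun x hx hxe => ?_) hf⟩
  exact hx (e.injective ((Equiv.apply_symm_apply e _).symm ▸ hxe))

omit [DecidableEq α] in
/-- The functional is continuous for a fixed alphabet. -/
theorem exists_func_le_add (hpres : ∀ g : FreeGroup α, MeasurePreserving (fun x : X => g • x) μ μ)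
    {ε : ℝ} (hε : 0 < ε) :
    ∃ δ > 0, ∀ Q Q' : X → C, Measurable Q → Measurable Q' →
      μ.real {x | Q x ≠ Q' x} < δ → func α μ Q ≤ func α μ Q' + ε := by
  let _ : MeasurableSpace (Option C) := ⊤
  let _ : MeasurableSpace (Option (C × C)) := ⊤
  set η := ε / (3 * Fintype.card α + 1)
  have hη : 0 < η := by positivity
  obtain ⟨δ₁, hδ₁, h₁⟩ := exists_entropy_err_le (B := C) μ hη
  obtain ⟨δ₂, hδ₂, h₂⟩ := exists_entropy_err_le (B := C × C) μ hη
  refine ⟨min δ₁ (δ₂ / 2), lt_min hδ₁ (half_pos hδ₂), fun Q Q' hQ hQ' hm => ?_⟩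
  have hm' : μ.real {x | Q' x ≠ Q x} < min δ₁ (δ₂ / 2) := by simpa only [ne_comm] using hm
  have e1 := (entropy_le_add_err (μ := μ) hQ hQ').trans
    (add_le_add le_rfl (h₁ Q Q' hQ hQ' (hm.trans_le (min_le_left _ _))))
  have e2 := (entropy_le_add_err (μ := μ) hQ' hQ).trans
    (add_le_add le_rfl (h₁ Q' Q hQ' hQ (hm'.trans_le (min_le_left _ _))))
  have hpair : ∀ a : α, entropy μ (fun x => (Q x, tr (FreeGroup.of a) Q x)) ≤
      entropy μ (fun x => (Q' x, tr (FreeGroup.of a) Q' x)) + η := fun a => by
    have hp := hQ.prodMk (measurable_tr hpres hQ (FreeGroup.of a))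
    have hp' := hQ'.prodMk (measurable_tr hpres hQ' (FreeGroup.of a))
    refine (entropy_le_add_err (μ := μ) hp hp').trans (add_le_add le_rfl (h₂ _ _ hp hp' ?_))
    have hsub : {x | (Q x, tr (FreeGroup.of a) Q x) ≠ (Q' x, tr (FreeGroup.of a) Q' x)} ⊆
        {x | Q x ≠ Q' x} ∪ (fun x => (FreeGroup.of a)⁻¹ • x) ⁻¹' {x | Q x ≠ Q' x} := fun x hx => by
      simp only [Set.mem_ofPred_eq, ne_eq, Prod.ext_iff, not_and_or] at hx
      exact hx
    have hpre : μ.real ((fun x => (FreeGroup.of a)⁻¹ • x) ⁻¹' {x | Q x ≠ Q' x}) =
        μ.real {x | Q x ≠ Q' x} :=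
      congrArg ENNReal.toReal ((hpres _).measure_preimage
        (measurableSet_eq_fun hQ hQ').compl.nullMeasurableSet)
    have := (measureReal_mono (μ := μ) hsub).trans (measureReal_union_le _ _)
    rw [hpre] at this
    linarith [min_le_right δ₁ (δ₂ / 2)]
  have hsum := Finset.sum_le_sum fun a (_ : a ∈ Finset.univ) => hpair a
  rw [Finset.sum_add_distrib, Finset.sum_const, Finset.card_univ, nsmul_eq_mul] at hsum
  simp only [func]
  have hr : (0 : ℝ) ≤ Fintype.card α := Nat.cast_nonneg _
  have : (3 * (Fintype.card α : ℝ) + 1) * η = ε := by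
    simp only [η]
    field_simp
  nlinarith [mul_le_mul_of_nonneg_left e1 zero_le_one,
    mul_le_mul_of_nonneg_left e2 (by positivity : (0 : ℝ) ≤ 2 * Fintype.card α)]

omit [Fintype α] [DecidableEq α] in
/-- Changing an observable changes its join on at most the translates of the change. -/
theorem measureReal_obs_ne_le
    (hpres : ∀ g : FreeGroup α, MeasurePreserving (fun x : X => g • x) μ μ) {R R' : X → ι}
    (hR : Measurable R) (hR' : Measurable R') (S : Finset (FreeGroup α)) :
    μ.real {x | obs R S x ≠ obs R' S x} ≤ S.card * μ.real {x | R x ≠ R' x} := by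
  have hm : MeasurableSet {x | R x ≠ R' x} := (measurableSet_eq_fun hR hR').compl
  have hpre : ∀ g : FreeGroup α, μ.real ((fun x => g⁻¹ • x) ⁻¹' {x | R x ≠ R' x}) =
      μ.real {x | R x ≠ R' x} := fun g => by
    rw [measureReal_def, (hpres g⁻¹).measure_preimage hm.nullMeasurableSet, measureReal_def]
  refine ((measureReal_mono (μ := μ) (s₂ := ⋃ g ∈ S, (fun x => g⁻¹ • x) ⁻¹' {x | R x ≠ R' x})
    (fun x hx => ?_) (measure_ne_top _ _)).trans (measureReal_biUnion_finset_le _ _)).trans_eq ?_
  · by_contra hno
    simp only [Set.mem_iUnion, Set.mem_preimage, Set.mem_ofPred_eq, not_exists, not_not] at hno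
    exact hx (funext fun g => hno g g.2)
  · rw [Finset.sum_congr rfl fun g _ => hpre g, Finset.sum_const, nsmul_eq_mul]

variable [Fintype κ] [MeasurableSpace κ] [MeasurableSingletonClass κ]

omit [DecidableEq α] in
/-- Adjoining a nearly determined observable costs little. -/
theorem func_pair_le (hpres : ∀ g : FreeGroup α, MeasurePreserving (fun x : X => g • x) μ μ)
    [MeasurableSpace (Option ι)] [MeasurableSingletonClass (Option ι)] {P : X → ι}
    (hP : Measurable P) {B : X → κ} (hB : Measurable B) (f : κ → ι) :
    func α μ (fun x => (P x, B x)) ≤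
      func α μ B + (2 * Fintype.card α + 1) * entropy μ (err P (f ∘ B)) := by
  set D := err P (f ∘ B)
  have hD : Measurable D := measurable_err hP ((measurable_of_finite f).comp hB)
  have hU : Coarser (fun x => (P x, B x)) fun x => (B x, D x) := by
    refine ⟨fun p => (p.2.getD (f p.1), p.1), funext fun x => ?_⟩
    by_cases hx : P x = f (B x) <;> simp [D, err, hx]
  have h1 : entropy μ (fun x => (P x, B x)) ≤ entropy μ B + entropy μ D :=
    (entropy_mono (hB.prodMk hD) hU).trans (entropy_pair_le hB hD)
  have h0 : entropy μ B ≤ entropy μ fun x => (P x, B x) :=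
    entropy_mono (hP.prodMk hB) (coarser_snd _ _)
  have h2 : ∀ a : α,
      entropy μ (fun x => ((P x, B x), tr (FreeGroup.of a) (fun x => (P x, B x)) x)) ≤
      entropy μ (fun x => (B x, tr (FreeGroup.of a) B x)) + 2 * entropy μ D := fun a => by
    have htB := measurable_tr hpres hB (FreeGroup.of a)
    have htD := measurable_tr hpres hD (FreeGroup.of a)
    refine (entropy_mono ((hB.prodMk htB).prodMk (hD.prodMk htD)) ?_).trans
      ((entropy_pair_le (hB.prodMk htB) (hD.prodMk htD)).trans (add_le_add le_rfl ?_))
    · refine (hU.trans ?_).prod ((hU.translate _).trans ?_)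
      · exact ⟨fun p => (p.1.1, p.2.1), rfl⟩
      · exact ⟨fun p => (p.1.2, p.2.2), rfl⟩
    · refine (entropy_pair_le hD htD).trans (le_of_eq ?_)
      rw [entropy_tr hpres hD]
      ring
  have hsum := Finset.sum_le_sum fun a (_ : a ∈ Finset.univ) => h2 a
  rw [Finset.sum_add_distrib, Finset.sum_const, Finset.card_univ, nsmul_eq_mul] at hsum
  simp only [func]
  nlinarith [mul_le_mul_of_nonneg_left h0 (by positivity : (0 : ℝ) ≤ 2 * Fintype.card α)]

/-- A window code beside `P` is refined by a ball of `P`, and by splittings. -/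
theorem func_ball_le_window
    (hpres : ∀ g : FreeGroup α, MeasurePreserving (fun x : X => g • x) μ μ)
    {P : X → ι} (hP : Measurable P) {N : ℕ} (w : (ball α N → ι) → κ) (K : ℕ) :
    func α μ (obs P (ball α (K + N))) ≤
      func α μ fun x => (P x, obs (w ∘ obs P (ball α N)) (ball α K) x) := by
  have : Nonempty X := nonempty_of_isProbabilityMeasure μ
  have : Nonempty ι := this.map P
  have : Nonempty κ := ‹Nonempty X›.map (w ∘ obs P (ball α N))
  have hwm : Measurable (w ∘ obs P (ball α N)) :=
    (measurable_of_finite w).comp (measurable_obs hpres hP _)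
  set U : X → ι × (ball α K → κ) := fun x => (P x, obs (w ∘ obs P (ball α N)) (ball α K) x)
  have hU : Measurable U := hP.prodMk (measurable_obs hpres hwm _)
  have hM := measurable_obs hpres hP (ball α (K + N))
  have cU : Coarser U (obs P (ball α (K + N))) := by
    refine Coarser.prod ?_ (coarser_obs_of fun g hg => ?_)
    · have := coarser_obs_mem (P := P) (ball_mono (α := α) (Nat.zero_le (K + N))
        (Finset.mem_singleton_self 1))
      rwa [tr_one] at this
    refine (Coarser.translate (Q := obs P (ball α N)) ⟨w, rfl⟩ g).trans ?_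
    refine ⟨fun v (h : ball α N) => v ⟨g * (h : FreeGroup α), mul_mem_ball hg h.2⟩,
      funext fun x => funext fun h => ?_⟩
    show tr g (tr (h : FreeGroup α) P) x = tr (g * (h : FreeGroup α)) P x
    rw [tr_tr]
  have c0 : Coarser (fun x => (U x, obs P (ball α 0) x)) U := by
    refine (Coarser.refl U).prod (coarser_obs_of fun g hg => ?_)
    rw [Finset.mem_singleton.1 hg, tr_one]
    exact coarser_fst _ _
  calc func α μ (obs P (ball α (K + N)))
      = func α μ (fun x => (U x, obs P (ball α (K + N)) x)) :=
        func_congr hpres hM (hU.prodMk hM) (coarser_snd _ _) (cU.prod (Coarser.refl _))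
    _ ≤ func α μ (fun x => (U x, obs P (ball α 0) x)) :=
        func_pair_ball_anti hpres hU hP (Nat.zero_le _)
    _ = func α μ U :=
        func_congr hpres (hU.prodMk (measurable_obs hpres hP _)) hU c0 (coarser_fst _ _)

/-- **A generating observable has the least invariant.** -/
theorem fInv_le_of_generates
    (hpres : ∀ g : FreeGroup α, MeasurePreserving (fun x : X => g • x) μ μ)
    {P : X → ι} (hP : Measurable P) (hgen : Generates α μ P) {Q : X → κ} (hQ : Measurable Q)
    (hgen' : Generates α μ Q) : fInv α μ P ≤ fInv α μ Q := by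
  refine le_iInf fun k => ?_
  have : Nonempty X := nonempty_of_isProbabilityMeasure μ
  have : Nonempty ι := this.map P
  have : Nonempty κ := ‹Nonempty X›.map Q
  refine le_of_forall_gt_imp_ge_of_dense fun c hc => ?_
  obtain ⟨c', hc1, hc2⟩ := EReal.exists_between_coe_real hc
  rw [EReal.coe_lt_coe_iff] at hc1
  refine le_trans ?_ hc2.le
  set ε := (c' - func α μ (obs Q (ball α k))) / 2
  have hε : 0 < ε := half_pos (sub_pos.2 hc1)
  -- `P` from a ball of `Q`
  let _ : MeasurableSpace (Option ι) := ⊤
  have hr : (0 : ℝ) < 2 * Fintype.card α + 1 := by positivity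
  obtain ⟨δ₁, hδ₁, h₁⟩ := exists_entropy_err_le (B := ι) μ (div_pos hε hr)
  obtain ⟨K, hkK, f, hf⟩ := hgen'.approx hP hδ₁ k
  have hB := measurable_obs hpres hQ (ball α K)
  have h1 := h₁ P (f ∘ obs Q (ball α K)) hP ((measurable_of_finite f).comp hB) hf
  have step1 : func α μ (fun x => (P x, obs Q (ball α K) x)) ≤
      func α μ (obs Q (ball α k)) + ε := by
    refine (func_pair_le hpres hP hB f).trans (add_le_add (func_ball_anti hpres hQ hkK) ?_)
    exact (mul_le_mul_of_nonneg_left h1 hr.le).trans_eq (mul_div_cancel₀ _ hr.ne')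
  -- `Q` from a ball of `P`
  obtain ⟨δ₂, hδ₂, h₂⟩ := exists_func_le_add (C := ι × (ball α K → κ)) hpres hε
  obtain ⟨N, -, w, hw⟩ :=
    hgen.approx hQ (div_pos hδ₂ (Nat.cast_pos.2 (Nat.succ_pos (ball α K).card))) 0
  have hwm : Measurable (w ∘ obs P (ball α N)) :=
    (measurable_of_finite w).comp (measurable_obs hpres hP _)
  set U : X → ι × (ball α K → κ) := fun x => (P x, obs Q (ball α K) x)
  set U' : X → ι × (ball α K → κ) := fun x => (P x, obs (w ∘ obs P (ball α N)) (ball α K) x)
  have hU' : Measurable U' := hP.prodMk (measurable_obs hpres hwm _)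
  have step2 : func α μ U' ≤ func α μ U + ε := by
    refine h₂ U' U hU' (hP.prodMk hB) (lt_of_le_of_lt
      ((measureReal_mono (s₁ := {x | U' x ≠ U x})
        (s₂ := {x | obs (w ∘ obs P (ball α N)) (ball α K) x ≠ obs Q (ball α K) x})
        fun x hx he => hx (Prod.ext rfl he)).trans
        (measureReal_obs_ne_le hpres hwm hQ _)) ?_)
    rw [lt_div_iff₀ (Nat.cast_pos.2 (Nat.succ_pos _))] at hw
    have e : {x | (w ∘ obs P (ball α N)) x ≠ Q x} = {x | Q x ≠ w (obs P (ball α N) x)} := by
      ext x; simp [ne_comm]
    rw [e]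
    push_cast at hw
    nlinarith [measureReal_nonneg (μ := μ) (s := {x | Q x ≠ w (obs P (ball α N) x)})]
  have step3 : func α μ (obs P (ball α (K + N))) ≤ func α μ U' :=
    func_ball_le_window hpres hP w K
  refine (iInf_le _ (K + N)).trans (EReal.coe_le_coe_iff.2 ?_)
  have : func α μ (obs Q (ball α k)) + 2 * ε = c' := by simp only [ε]; ring
  linarith

end invariant

end FA.Bowen

end
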