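import Fermat.Agent.KolmogorovSinai.Entropy
import Mathlib.GroupTheory.FreeGroup.Reduce
import Mathlib.SetTheory.Cardinal.Free

/-!
# Bowen's functional and splittings

Joins and translates of observables. Adjoining a translate by a generator of a coarsening does not
increase Bowen's functional.
-/

set_option autoImplicit false

noncomputable section

open MeasureTheory Filter Topology Real
open FA.KolmogorovSinai (entropy entropy_nonneg entropy_comp_le entropy_pair_le entropy_map)

namespace FA.Bowen

section entropy

variable {X B C D : Type*} [MeasurableSpace X] {μ : Measure X} [IsProbabilityMeasure μ]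

/-- `P` is a function of `Q`. -/
def Coarser (P : X → B) (Q : X → C) : Prop := ∃ f : C → B, P = f ∘ Q

omit [MeasurableSpace X] in
theorem Coarser.refl (P : X → B) : Coarser P P := ⟨id, rfl⟩

omit [MeasurableSpace X] in
theorem Coarser.trans {P : X → B} {Q : X → C} {R : X → D} (h : Coarser P Q) (h' : Coarser Q R) :
    Coarser P R := by
  obtain ⟨f, rfl⟩ := h
  obtain ⟨g, rfl⟩ := h'
  exact ⟨f ∘ g, rfl⟩

omit [MeasurableSpace X] in
theorem Coarser.prod {P : X → B} {Q : X → C} {R : X → D} (h : Coarser P R) (h' : Coarser Q R) :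
    Coarser (fun x => (P x, Q x)) R := by
  obtain ⟨f, rfl⟩ := h
  obtain ⟨g, rfl⟩ := h'
  exact ⟨fun r => (f r, g r), rfl⟩

omit [MeasurableSpace X] in
theorem coarser_fst (P : X → B) (Q : X → C) : Coarser P fun x => (P x, Q x) := ⟨Prod.fst, rfl⟩

omit [MeasurableSpace X] in
theorem coarser_snd (P : X → B) (Q : X → C) : Coarser Q fun x => (P x, Q x) := ⟨Prod.snd, rfl⟩

variable [Fintype B] [MeasurableSpace B] [MeasurableSingletonClass B] [Fintype C]
  [MeasurableSpace C] [MeasurableSingletonClass C] [Fintype D] [MeasurableSpace D]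
  [MeasurableSingletonClass D]

omit [MeasurableSpace B] [MeasurableSingletonClass B] in
theorem entropy_mono {P : X → B} {Q : X → C} (hQ : Measurable Q) (h : Coarser P Q) :
    entropy μ P ≤ entropy μ Q := by
  obtain ⟨f, rfl⟩ := h
  exact entropy_comp_le hQ f

theorem entropy_eq {P : X → B} {Q : X → C} (hP : Measurable P) (hQ : Measurable Q)
    (h : Coarser P Q) (h' : Coarser Q P) : entropy μ P = entropy μ Q :=
  le_antisymm (entropy_mono hQ h) (entropy_mono hP h')

omit [MeasurableSpace C] [MeasurableSingletonClass C] [Fintype C] in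
theorem measureReal_comp_preimage {W : X → B} (hW : Measurable W) [DecidableEq C] (g : B → C)
    (e : C) : μ.real ((g ∘ W) ⁻¹' {e}) = ∑ p with g p = e, μ.real (W ⁻¹' {p}) := by
  rw [sum_measureReal_preimage_singleton _ fun p _ => hW (measurableSet_singleton p)]
  congr 1
  ext x
  simp

/-- **Strong subadditivity.** -/
theorem entropy_triple_le {P : X → B} {Q : X → C} {R : X → D} (hP : Measurable P)
    (hQ : Measurable Q) (hR : Measurable R) :
    entropy μ (fun x => (P x, Q x, R x)) + entropy μ R ≤
      entropy μ (fun x => (P x, R x)) + entropy μ fun x => (Q x, R x) := by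
  classical
  set s : B → C → D → ℝ := fun a b c =>
    μ.real ((fun x => (P x, Q x, R x)) ⁻¹' {(a, b, c)}) with hs
  have hm : Measurable fun x => (P x, Q x, R x) := hP.prodMk (hQ.prodMk hR)
  set q : B → D → ℝ := fun a c => μ.real ((fun x => (P x, R x)) ⁻¹' {(a, c)}) with hq
  set r : C → D → ℝ := fun b c => μ.real ((fun x => (Q x, R x)) ⁻¹' {(b, c)}) with hr
  set w : D → ℝ := fun c => μ.real (R ⁻¹' {c}) with hw
  have eq : ∀ a c, q a c = ∑ b, s a b c := fun a c => by
    rw [hq]
    refine (measureReal_comp_preimage hm (fun p => (p.1, p.2.2)) (a, c)).trans ?_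
    rw [Finset.sum_filter, Fintype.sum_prod_type]
    simp [Fintype.sum_prod_type, Prod.ext_iff, Finset.sum_ite_eq', ite_and, hs]
  have er : ∀ b c, r b c = ∑ a, s a b c := fun b c => by
    rw [hr]
    refine (measureReal_comp_preimage hm (fun p => p.2) (b, c)).trans ?_
    rw [Finset.sum_filter, Fintype.sum_prod_type]
    simp [Finset.sum_ite_eq', hs]
  have ew : ∀ c, w c = ∑ a, q a c := fun c => by
    rw [hw]
    refine (measureReal_comp_preimage hm (fun p => p.2.2) c).trans ?_
    rw [Finset.sum_filter, Fintype.sum_prod_type]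
    simp [eq, Fintype.sum_prod_type, Finset.sum_ite_eq', hs]
  have ew' : ∀ c, w c = ∑ b, r b c := fun c => by
    rw [ew, Finset.sum_congr rfl fun a _ => eq a c, Finset.sum_comm]
    exact Finset.sum_congr rfl fun b _ => (er b c).symm
  have hnn : ∀ a b c, 0 ≤ s a b c := fun _ _ _ => measureReal_nonneg
  have key : ∀ a b c, negMulLog (s a b c) ≤
      -s a b c * (log (q a c) + log (r b c) - log (w c)) +
        (q a c * r b c / w c - s a b c) := fun a b c => by
    rcases (hnn a b c).eq_or_lt with h | h
    · simp only [← h, negMulLog_zero, neg_zero, zero_mul, zero_add, sub_zero]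
      exact div_nonneg (mul_nonneg measureReal_nonneg measureReal_nonneg) measureReal_nonneg
    have ha : 0 < q a c := by
      rw [eq]; exact h.trans_le (Finset.single_le_sum (fun b _ => hnn a b c) (Finset.mem_univ b))
    have hb : 0 < r b c := by
      rw [er]; exact h.trans_le (Finset.single_le_sum (fun a _ => hnn a b c) (Finset.mem_univ a))
    have hc : 0 < w c := by
      rw [ew]
      exact ha.trans_le (Finset.single_le_sum (f := fun a => q a c)
        (fun _ _ => measureReal_nonneg) (Finset.mem_univ a))
    have h1 := log_le_sub_one_of_pos (div_pos (div_pos (mul_pos ha hb) hc) h)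
    rw [log_div (div_pos (mul_pos ha hb) hc).ne' h.ne', log_div (mul_pos ha hb).ne' hc.ne',
      log_mul ha.ne' hb.ne'] at h1
    have h2 := mul_le_mul_of_nonneg_left h1 h.le
    rw [mul_sub_one, mul_div_cancel₀ _ h.ne'] at h2
    simp only [negMulLog]
    linarith
  have hE : entropy μ (fun x => (P x, Q x, R x)) = ∑ a, ∑ b, ∑ c, negMulLog (s a b c) := by
    rw [entropy, Fintype.sum_prod_type]
    simp only [Fintype.sum_prod_type, hs]
  have hEP : entropy μ (fun x => (P x, R x)) = ∑ a, ∑ b, ∑ c, -s a b c * log (q a c) := by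
    rw [entropy, Fintype.sum_prod_type]
    refine Finset.sum_congr rfl fun a _ => ?_
    rw [Finset.sum_comm]
    refine Finset.sum_congr rfl fun c _ => ?_
    rw [← Finset.sum_mul, Finset.sum_neg_distrib, ← eq]
    rfl
  have hEQ : entropy μ (fun x => (Q x, R x)) = ∑ a, ∑ b, ∑ c, -s a b c * log (r b c) := by
    rw [entropy, Fintype.sum_prod_type, Finset.sum_comm (f := fun a b => ∑ c, -s a b c * _)]
    refine Finset.sum_congr rfl fun b _ => ?_
    rw [Finset.sum_comm]
    refine Finset.sum_congr rfl fun c _ => ?_
    rw [← Finset.sum_mul, Finset.sum_neg_distrib, ← er]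
    rfl
  have hER : entropy μ R = ∑ a, ∑ b, ∑ c, -s a b c * log (w c) := by
    rw [entropy, Finset.sum_congr rfl fun a _ => Finset.sum_comm, Finset.sum_comm]
    refine Finset.sum_congr rfl fun c _ => ?_
    simp only [← Finset.sum_mul, Finset.sum_neg_distrib, ← eq, ← ew]
    rfl
  have hzero : ∑ a, ∑ b, ∑ c, (q a c * r b c / w c - s a b c) ≤ 0 := by
    rw [Finset.sum_congr rfl fun a _ => Finset.sum_comm, Finset.sum_comm]
    refine Finset.sum_nonpos fun c _ => ?_
    simp only [Finset.sum_sub_distrib, ← eq, ← ew, ← Finset.sum_div, ← Finset.mul_sum,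
      ← Finset.sum_mul, ← ew']
    rcases eq_or_ne (w c) 0 with h | h
    · simp [h]
    · rw [mul_div_assoc, div_self h, mul_one, sub_self]
  have hsum := Finset.sum_le_sum fun a (_ : a ∈ Finset.univ) =>
    Finset.sum_le_sum fun b (_ : b ∈ Finset.univ) =>
      Finset.sum_le_sum fun c (_ : c ∈ Finset.univ) => key a b c
  simp only [mul_add, mul_sub, Finset.sum_add_distrib, Finset.sum_sub_distrib] at hsum hzero
  linarith [hE, hEP, hEQ, hER]

/-- Adjoining `Q` costs at most what it costs over a coarsening `R` of `P`. -/
theorem entropy_add_le {P : X → B} {Q : X → C} {R : X → D} (hP : Measurable P)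
    (hQ : Measurable Q) (hR : Measurable R) (h : Coarser R P) :
    entropy μ (fun x => (P x, Q x)) ≤
      entropy μ P + (entropy μ (fun x => (Q x, R x)) - entropy μ R) := by
  have h1 := entropy_triple_le (μ := μ) hP hQ hR
  have h2 : entropy μ (fun x => (P x, Q x)) ≤ entropy μ fun x => (P x, Q x, R x) :=
    entropy_mono (hP.prodMk (hQ.prodMk hR)) ⟨fun p => (p.1, p.2.1), rfl⟩
  have h3 : entropy μ (fun x => (P x, R x)) = entropy μ P :=
    entropy_eq (hP.prodMk hR) hP ((Coarser.refl P).prod h) (coarser_fst P R)
  linarith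

end entropy

section action

variable {α X B C ι : Type*} [MeasurableSpace X] [MulAction (FreeGroup α) X] {μ : Measure X}

/-- The translate of an observable. -/
def tr (g : FreeGroup α) (P : X → B) : X → B := fun x => P (g⁻¹ • x)

omit [MeasurableSpace X] in
theorem tr_one (P : X → B) : tr (1 : FreeGroup α) P = P := by
  funext x
  simp [tr]

omit [MeasurableSpace X] in
theorem tr_tr (g h : FreeGroup α) (P : X → B) : tr g (tr h P) = tr (g * h) P := by
  funext x
  simp [tr, mul_smul]

omit [MeasurableSpace X] in
theorem Coarser.translate {P : X → B} {Q : X → C} (h : Coarser P Q) (g : FreeGroup α) :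
    Coarser (tr g P) (tr g Q) := by
  obtain ⟨f, rfl⟩ := h
  exact ⟨f, rfl⟩

theorem measurable_tr (hpres : ∀ g : FreeGroup α, MeasurePreserving (fun x : X => g • x) μ μ)
    [MeasurableSpace B] {P : X → B} (hP : Measurable P) (g : FreeGroup α) :
    Measurable (tr g P) :=
  hP.comp (hpres _).measurable

theorem entropy_tr (hpres : ∀ g : FreeGroup α, MeasurePreserving (fun x : X => g • x) μ μ)
    [Fintype B] [MeasurableSpace B] [MeasurableSingletonClass B] {P : X → B} (hP : Measurable P)
    (g : FreeGroup α) : entropy μ (tr g P) = entropy μ P :=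
  entropy_map (hpres _) hP

variable [Fintype α]

/-- **Bowen's functional.** -/
def func (α : Type*) [Fintype α] {X B : Type*} [MeasurableSpace X] [MulAction (FreeGroup α) X]
    (μ : Measure X) [Fintype B] (P : X → B) : ℝ :=
  (1 - 2 * Fintype.card α) * entropy μ P +
    ∑ a : α, entropy μ fun x => (P x, tr (FreeGroup.of a) P x)

variable [IsProbabilityMeasure μ] [Fintype B] [MeasurableSpace B] [MeasurableSingletonClass B]
  [Fintype C] [MeasurableSpace C] [MeasurableSingletonClass C]

theorem func_congr (hpres : ∀ g : FreeGroup α, MeasurePreserving (fun x : X => g • x) μ μ)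
    {P : X → B} {Q : X → C} (hP : Measurable P) (hQ : Measurable Q) (h : Coarser P Q)
    (h' : Coarser Q P) : func α μ P = func α μ Q := by
  unfold func
  rw [entropy_eq hP hQ h h']
  congr 1
  refine Finset.sum_congr rfl fun a _ => entropy_eq (hP.prodMk (measurable_tr hpres hP _))
    (hQ.prodMk (measurable_tr hpres hQ _)) ?_ ?_
  · exact (h.trans (coarser_fst _ _)).prod ((h.translate _).trans (coarser_snd _ _))
  · exact (h'.trans (coarser_fst _ _)).prod ((h'.translate _).trans (coarser_snd _ _))

/-- A letter as a group element. -/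
def sign (l : α × Bool) : FreeGroup α :=
  if l.2 then FreeGroup.of l.1 else (FreeGroup.of l.1)⁻¹

/-- **Bowen's splitting lemma.** -/
theorem func_split (hpres : ∀ g : FreeGroup α, MeasurePreserving (fun x : X => g • x) μ μ)
    {P : X → B} (hP : Measurable P) (f : B → C) (l : α × Bool) :
    func α μ (fun x => (P x, tr (sign l) (f ∘ P) x)) ≤ func α μ P := by
  classical
  set s := sign l
  set R := f ∘ P
  have hR : Measurable R := (measurable_of_finite f).comp hP
  have hsR := measurable_tr hpres hR s
  set Q := fun x => (P x, tr s R x) with hQdef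
  have hQ : Measurable Q := hP.prodMk hsR
  set Δ := entropy μ Q - entropy μ P with hΔ
  have hΔ' : ∀ g : FreeGroup α,
      entropy μ (fun x => (tr g (tr s R) x, tr g P x)) - entropy μ (tr g P) = Δ := fun g => by
    rw [show (fun x => (tr g (tr s R) x, tr g P x)) = tr g fun x => (tr s R x, P x) from rfl,
      entropy_tr hpres (hsR.prodMk hP), entropy_tr hpres hP, hΔ,
      entropy_eq (hsR.prodMk hP) hQ ⟨Prod.swap, rfl⟩ ⟨Prod.swap, rfl⟩]
  have hterm : ∀ a : α, entropy μ (fun x => (Q x, tr (FreeGroup.of a) Q x)) ≤
      entropy μ (fun x => (P x, tr (FreeGroup.of a) P x)) +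
        (if a = l.1 then Δ else 2 * Δ) := fun a => by
    set t := FreeGroup.of a
    have htP := measurable_tr hpres hP t
    have hPP : Measurable fun x => (P x, tr t P x) := hP.prodMk htP
    have htR := measurable_tr hpres hsR t
    have c1 : Coarser P fun x => (P x, tr t P x) := coarser_fst _ _
    have c2 : Coarser (tr t P) fun x => (P x, tr t P x) := coarser_snd _ _
    have hone : ∀ {S : X → C}, Measurable S → ∀ g : FreeGroup α, tr g (tr s R) = S →
        Coarser (tr g P) (fun x => (P x, tr t P x)) →
        entropy μ (fun x => ((P x, tr t P x), S x)) ≤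
          entropy μ (fun x => (P x, tr t P x)) + Δ := fun {S} hS g hg hc => by
      have := entropy_add_le (μ := μ) hPP hS (measurable_tr hpres hP g) hc
      rw [← hg] at this ⊢
      linarith [hΔ' g]
    split_ifs with hal
    · obtain ⟨a', b⟩ := l
      obtain rfl : a = a' := hal
      cases b
      · refine le_trans (entropy_mono (hPP.prodMk hsR) ?_) (hone hsR 1 (tr_one _)
          (by rw [tr_one]; exact c1))
        refine ((coarser_fst _ _).trans (coarser_fst _ _)).prod (coarser_snd _ _) |>.prod ?_
        refine (((c2.trans (coarser_fst _ _))).prod ?_)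
        show Coarser (tr t (tr s R)) _
        rw [tr_tr, show t * s = 1 by simp [t, s, sign], tr_one]
        exact (show Coarser R P from ⟨f, rfl⟩).trans (c1.trans (coarser_fst _ _))
      · refine le_trans (entropy_mono (hPP.prodMk htR) ?_) (hone htR t rfl c2)
        refine ((c1.trans (coarser_fst _ _)).prod ?_).prod
          ((c2.trans (coarser_fst _ _)).prod (coarser_snd _ _))
        exact ((show Coarser R P from ⟨f, rfl⟩).translate t).trans (c2.trans (coarser_fst _ _))
    · have h1 := hone hsR 1 (tr_one _) (by rw [tr_one]; exact c1)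
      have h2 := entropy_add_le (μ := μ) (hPP.prodMk hsR) htR htP (c2.trans (coarser_fst _ _))
      have h3 : entropy μ (fun x => (Q x, tr t Q x)) ≤
          entropy μ (fun x => (((P x, tr t P x), tr s R x), tr t (tr s R) x)) :=
        entropy_mono ((hPP.prodMk hsR).prodMk htR)
          ⟨fun p => ((p.1.1.1, p.1.2), (p.1.1.2, p.2)), rfl⟩
      linarith [hΔ' t]
  have hsum := Finset.sum_le_sum fun a (_ : a ∈ Finset.univ) => hterm a
  rw [Finset.sum_add_distrib] at hsum
  have hcount : ∑ a : α, (if a = l.1 then Δ else 2 * Δ) = (2 * Fintype.card α - 1) * Δ := by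
    rw [Finset.sum_congr rfl fun a _ => show (if a = l.1 then Δ else 2 * Δ) =
      2 * Δ - if a = l.1 then Δ else 0 by split_ifs <;> ring, Finset.sum_sub_distrib,
      Finset.sum_const, Finset.card_univ, Finset.sum_ite_eq', if_pos (Finset.mem_univ _),
      nsmul_eq_mul]
    ring
  rw [hcount] at hsum
  have e : entropy μ Q = entropy μ P + Δ := by rw [hΔ]; ring
  simp only [func]
  linear_combination hsum + (1 - 2 * (Fintype.card α : ℝ)) * e

end action

end FA.Bowen

end
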